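import Fermat.Agent.RM.Lift

/-!
# An eigen system congruent to values in an algebraic closure of the prime field

Values at some labels which satisfy every relation of the Hecke ring are the reduction of an eigen
system with integral values.
-/

set_option autoImplicit false

noncomputable section

namespace Fermat.DS

open MvPolynomial Fermat.MC.Lvl

variable {p : ℕ} [hp : Fact p.Prime]

/-- **An eigen system reducing to given values.** -/
theorem exists_point_congruent {K : ℕ} [NeZero K] {H : Subgroup (ZMod K)ˣ} [NegMem H] {σ : Type}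
    (g : σ → Nat.Primes ⊕ (ZMod K)ˣ) {k : Type} [Field k] [IsAlgClosed k] [CharP k p] (t : σ → k)
    (ht : ∀ P : MvPolynomial σ ℤ, HM.formAct K H (rename g P) = 0 →
      MvPolynomial.eval₂Hom (Int.castRingHom k) t P = 0) :
    ∃ (O : Type) (_ : CommRing O) (_ : IsDomain O) (_ : IsDiscreteValuationRing O)
      (_ : IsAdicComplete (IsLocalRing.maximalIdeal O) O)
      (_ : Finite (IsLocalRing.ResidueField O)) (_ : CharZero O),
      (p : O) ∈ IsLocalRing.maximalIdeal O ∧
      ∃ (x : MvPolynomial (Nat.Primes ⊕ (ZMod K)ˣ) ℤ →+* O)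
        (ι : IsLocalRing.ResidueField O →+* k),
        GR.RT.IsPoint K H x ∧ ∀ i, ι (IsLocalRing.residue O (x (X (g i)))) = t i := by
  let ev := Fermat.JAC.XH.ringEval K H
  have := Fermat.RM.free_int_of_natCast_mul (R := (Fermat.JAC.XH.heckeGens K H).R)
    fun _ hn _ h => Fermat.RM.eq_zero_of_natCast_mul hn h
  obtain ⟨O, h1, h2, h3, h4, h5, h6, hpO, F, ι, hF⟩ := Fermat.RM.exists_dvr_point_congruent (l := p)
    (R := (Fermat.JAC.XH.heckeGens K H).R) (k := k) (fun i => ev (X (g i))) t
    fun P hP => ht P ((Fermat.JAC.XH.ringEval_eq_zero_iff K H _).mp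
      ((Fermat.RM.eval₂Hom_rename g ev P).symm.trans hP))
  exact ⟨O, h1, h2, h3, h4, h5, h6, hpO, F.comp ev, ι, GR.RT.isPoint_of_factor K H _, hF⟩

end Fermat.DS

end
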