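import Fermat.Agent.DS.Defs

/-!
# Semisimplification in dimension two

`exists_semisimplification`: a representation has a semisimplification with the same traces and
determinants, trivial where it is trivial.
-/

set_option autoImplicit false

noncomputable section

open Matrix

namespace Fermat.DS

variable {G k : Type*} [Group G] [Field k]

/-- The representation `g ↦ diag (a g, d g)`. -/
def diagRep (a d : G →* kˣ) : G →* GL (Fin 2) k :=
  MonoidHom.toHomUnits
    { toFun := fun g => !![(a g : k), 0; 0, (d g : k)]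
      map_one' := by rw [map_one, map_one, Units.val_one, Matrix.one_fin_two]
      map_mul' := fun g h => by
        rw [map_mul, map_mul, Units.val_mul, Units.val_mul]
        simp }

/-- The matrices of `diagRep`. -/
theorem coe_diagRep (a d : G →* kˣ) (g : G) :
    (diagRep a d g : Matrix (Fin 2) (Fin 2) k) = !![(a g : k), 0; 0, (d g : k)] := rfl

/-- A diagonal representation has semisimple image. -/
theorem isSS_range_diagRep (a d : G →* kˣ) : IsSS (diagRep a d).range := by
  intro v hv _
  have he : ∀ g : GL (Fin 2) k, g ∈ (diagRep a d).range → ∀ i : Fin 2, ∃ c : k,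
      (g : Matrix (Fin 2) (Fin 2) k) *ᵥ Pi.single i 1 = c • Pi.single i 1 := by
    rintro _ ⟨x, rfl⟩ i
    refine ⟨(diagRep a d x : Matrix (Fin 2) (Fin 2) k) i i, ?_⟩
    funext j
    fin_cases i <;> fin_cases j <;> simp [coe_diagRep, Matrix.mulVec, dotProduct, Fin.sum_univ_two]
  by_cases h : v 1 = 0
  · refine ⟨Pi.single 1 1, fun c hc => ?_, fun g hg => he g hg 1⟩
    have := congrFun hc 1
    simp [h] at this
  · refine ⟨Pi.single 0 1, fun c hc => ?_, fun g hg => he g hg 0⟩
    have h1 := congrFun hc 1
    simp only [Pi.single_apply, Pi.smul_apply, smul_eq_mul] at h1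
    have hc0 : c = 0 := by simpa [h] using h1.symm
    have h0 := congrFun hc 0
    simp [hc0] at h0

/-- **Semisimplification**, keeping traces and determinants, and trivial where `ρ` is. -/
theorem exists_semisimplification (ρ : G →* GL (Fin 2) k) :
    ∃ ρ' : G →* GL (Fin 2) k, IsSS ρ'.range ∧ (∀ g, ρ g = 1 → ρ' g = 1) ∧
      ∀ g, (ρ' g : Matrix (Fin 2) (Fin 2) k).trace = (ρ g : Matrix (Fin 2) (Fin 2) k).trace ∧
        (ρ' g : Matrix (Fin 2) (Fin 2) k).det = (ρ g : Matrix (Fin 2) (Fin 2) k).det := by
  by_cases h : IsSS ρ.range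
  · exact ⟨ρ, h, fun g hg => hg, fun g => ⟨rfl, rfl⟩⟩
  -- else there is a stable line, with character `α`
  obtain ⟨v, hv, hline⟩ : ∃ v : Fin 2 → k, v ≠ 0 ∧
      ∀ g : G, ∃ c : k, (ρ g : Matrix (Fin 2) (Fin 2) k) *ᵥ v = c • v := by
    unfold IsSS at h
    push Not at h
    obtain ⟨v, hv, hl, -⟩ := h
    exact ⟨v, hv, fun g => hl _ ⟨g, rfl⟩⟩
  choose a ha using hline
  have hinj : ∀ c c' : k, c • v = c' • v → c = c' := fun c c' e => smul_left_injective k hv e
  let aH : G →* k :=
    { toFun := a
      map_one' := hinj _ _ (by rw [← ha, map_one, Units.val_one, one_mulVec, one_smul])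
      map_mul' := fun g g' => hinj _ _ (by
        rw [← ha, map_mul, Units.val_mul, ← mulVec_mulVec, ha, mulVec_smul, ha, smul_smul,
          mul_comm]) }
  set α : G →* kˣ := aH.toHomUnits
  set δ : G →* kˣ := (Matrix.GeneralLinearGroup.det.comp ρ) / α
  have hα : ∀ g, (α g : k) = a g := fun g => rfl
  have hδ : ∀ g, (δ g : k) = (ρ g : Matrix (Fin 2) (Fin 2) k).det * (a g)⁻¹ := fun g => by
    simp only [δ, MonoidHom.div_apply, div_eq_mul_inv, Units.val_mul, Units.val_inv_eq_inv_val,
      MonoidHom.comp_apply, Matrix.GeneralLinearGroup.val_det_apply, hα]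
  -- the diagonal representation of `α` and `det / α`
  refine ⟨diagRep α δ, isSS_range_diagRep α δ, fun g hg => ?_, fun g => ?_⟩
  · have h1 : a g = 1 := hinj _ _ (by rw [← ha, hg, Units.val_one, one_mulVec, one_smul])
    refine Units.ext ?_
    rw [coe_diagRep, hδ, hg, hα, h1, Units.val_one, det_one, inv_one, mul_one, Matrix.one_fin_two]
  · have ha0 : a g ≠ 0 := fun e => (α g).ne_zero ((hα g).trans e)
    set M : Matrix (Fin 2) (Fin 2) k := (ρ g : Matrix (Fin 2) (Fin 2) k)
    -- `α` is a root of the characteristic polynomial, so traces agree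
    have hroot : a g ^ 2 - M.trace * a g + M.det = 0 := by
      have h0 : (M - a g • (1 : Matrix (Fin 2) (Fin 2) k)).det = 0 :=
        Matrix.exists_mulVec_eq_zero_iff.mp
          ⟨v, hv, by rw [sub_mulVec, smul_mulVec, one_mulVec, ha, sub_self]⟩
      rw [det_fin_two] at h0
      simp [Matrix.sub_apply, Matrix.smul_apply] at h0
      rw [trace_fin_two, det_fin_two]
      linear_combination h0
    rw [coe_diagRep, hα, hδ, trace_fin_two_of, det_fin_two_of]
    refine ⟨?_, by field_simp; ring⟩
    field_simp
    linear_combination hroot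

end Fermat.DS

end
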