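import Fermat.Agent.DS.Red.Congr
import Fermat.Agent.DS.Red.Point
import Fermat.Agent.DS.Red.SemiSimple
import Fermat.Agent.GR.AttachProof.Main

/-!
# The representations modulo `l` of a weight one form

The product with the form congruent to one gives a congruent system of weight two and level
`N l`, whose representation is twisted back and semisimplified (`exists_residual`).
-/

set_option autoImplicit false

noncomputable section

open CongruenceSubgroup ModularFormClass
open scoped MatrixGroups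

namespace Fermat.DS

open Fermat.MC.Lvl Fermat.GR.RT

local notation "ℚbar" => AlgebraicClosure ℚ
local notation "Γℚ" => (AlgebraicClosure ℚ ≃ₐ[ℚ] AlgebraicClosure ℚ)

/-- At every large prime all elements of the `ℤ`-span of `s` have reductions through the
specialisation `ψ`. -/
theorem exists_kapEq_bound {s : Finset ℂ}
    (ψ : Algebra.adjoin QbarC (s : Set ℂ) →ₐ[QbarC] QbarC) :
    ∃ D : ℕ, ∀ (l : ℕ) [Fact l.Prime], D < l →
      ∀ (red : integralClosure ℤ ℂ →+* AlgebraicClosure (ZMod l)) (c : ℂ),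
        c ∈ Submodule.span ℤ (s : Set ℂ) → ∃ t, KapEq ψ red c t := by
  classical
  obtain ⟨D, hD, hint⟩ := exists_denominator s.attach
    fun x => ψ ⟨x.1, Algebra.subset_adjoin (Finset.mem_coe.mpr x.2)⟩
  refine ⟨D, fun l _ hl red c hc => ?_⟩
  induction hc using Submodule.span_induction with
  | mem x hx =>
    have hx' : x ∈ s := Finset.mem_coe.mp hx
    refine ⟨red ⟨_, hint ⟨x, hx'⟩ (Finset.mem_attach _ _)⟩ * (D : AlgebraicClosure (ZMod l))⁻¹,
      Algebra.subset_adjoin hx, ⟨_, hint ⟨x, hx'⟩ (Finset.mem_attach _ _)⟩,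
      (D : integralClosure ℤ ℂ),
      ?_, ?_, ?_⟩
    · rw [map_natCast, Ne, CharP.cast_eq_zero_iff (AlgebraicClosure (ZMod l)) l]
      exact fun hd => absurd (Nat.le_of_dvd (Nat.pos_of_ne_zero hD) hd) (not_le.mpr hl)
    · rw [SubringClass.coe_natCast, mul_comm]
    · rw [map_natCast, inv_mul_cancel_right₀]
      rw [Ne, CharP.cast_eq_zero_iff (AlgebraicClosure (ZMod l)) l]
      exact fun hd => absurd (Nat.le_of_dvd (Nat.pos_of_ne_zero hD) hd) (not_le.mpr hl)
  | zero => exact ⟨0, kapEq_zero⟩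
  | add x y _ _ hx hy =>
    obtain ⟨t, ht⟩ := hx
    obtain ⟨u, hu⟩ := hy
    exact ⟨t + u, ht.add hu⟩
  | smul n x _ hx =>
    obtain ⟨t, ht⟩ := hx
    rw [zsmul_eq_mul]
    exact ⟨n * t, (redEq_intCast (red := red) n).kapEq.mul ht⟩

variable {N : ℕ} [NeZero N] {ε : DirichletCharacter ℂ N} {f : CuspForm (Gamma1 N) 1}

/-- `ρ` is semisimple of finite level and, away from `N` and `l`, unramified with the reduced
characteristic polynomials of `f` at Frobenius elements. -/
def IsResidual (hf : IsWeightOneEigen ε f) {l : ℕ} [Fact l.Prime]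
    (red : integralClosure ℤ ℂ →+* AlgebraicClosure (ZMod l))
    (ρ : Γℚ →* GL (Fin 2) (AlgebraicClosure (ZMod l))) : Prop :=
  GaloisFactorsThroughFiniteLevel ρ ∧ IsSS ρ.range ∧
    ∀ p : ℕ, ∀ (hp : p.Prime) (hpN : ¬ p ∣ N), p ≠ l → ∀ A : ValuationSubring ℚbar,
      A.LiesOverPrime p → (∀ σ ∈ A.inertiaSubgroupIn ℚ, ρ σ = 1) ∧
        ∀ σ : Γℚ, A.IsFrobeniusAt σ p →
          (ρ σ : Matrix (Fin 2) (Fin 2) (AlgebraicClosure (ZMod l))).trace =
              red ⟨qCoeff f p, hf.isIntegral hp hpN⟩ ∧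
            (ρ σ : Matrix (Fin 2) (Fin 2) (AlgebraicClosure (ZMod l))).det =
              red (charInt ε (p : ZMod N))

/-- **The representations modulo all large primes.** -/
theorem exists_residual (hEis : EisStatement) (hf : IsWeightOneEigen ε f) :
    ∃ B : ℕ, ∀ (l : ℕ) [Fact l.Prime], B < l →
      ∀ red : integralClosure ℤ ℂ →+* AlgebraicClosure (ZMod l),
        ∃ ρ : Γℚ →* GL (Fin 2) (AlgebraicClosure (ZMod l)), IsResidual hf red ρ := by
  obtain ⟨BE, hBE⟩ := hEis
  obtain ⟨s, hs, -⟩ := exists_coeffRing f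
  obtain ⟨ψ⟩ := JAC.exists_specialisation (k := QbarC) s
  obtain ⟨D, hD⟩ := exists_kapEq_bound ψ
  refine ⟨BE + D, fun l hl hBl red => ?_⟩
  obtain ⟨E, hEh, hEi, hEb, hE⟩ := hBE l (by omega)
  have hrel := eval_eq_zero_of_formAct hf hEh hEi hEb (hE red) ψ
    fun n => hD l (by omega) red _ (hs n)
  -- a congruent eigen-point of weight two and level `N l`, whose representation is twisted back
  set K := N * l with hK
  set k := AlgebraicClosure (ZMod l) with hk
  obtain ⟨O, h1, h2, h3, h4, h5, h6, hpO, x, ι, hx, hxt⟩ :=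
    exists_point_congruent (p := l) (H := pmH K) (goodIncl K) (redValues hf red) hrel
  obtain ⟨r, hr⟩ := attachInput l K (pmH K) NegMem.neg_one_mem O hpO x hx
  let π : O →+* k := ι.comp (IsLocalRing.residue O)
  let r0 : Γℚ →* GL (Fin 2) k := ((π.mapMatrix : Matrix (Fin 2) (Fin 2) O →+* _).toMonoidHom.comp
    r).toHomUnits
  let χ : Γℚ →* kˣ := (diaTheta ε red : (ZMod K)ˣ →* kˣ)⁻¹.comp (cycK K)
  let ρ0 : Γℚ →* GL (Fin 2) k := MonoidHom.toHomUnits
    { toFun := fun σ => (χ σ : k) • (r0 σ : Matrix (Fin 2) (Fin 2) k)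
      map_one' := by rw [map_one, map_one, Units.val_one, Units.val_one, one_smul]
      map_mul' := fun σ τ => by
        rw [map_mul, map_mul, Units.val_mul, Units.val_mul, smul_mul_smul_comm] }
  have hρ0 : ∀ σ, (ρ0 σ : Matrix (Fin 2) (Fin 2) k) = (χ σ : k) • (r σ).map π := fun σ => rfl
  obtain ⟨ρ, hss, hker, htd⟩ := exists_semisimplification ρ0
  have hone : ∀ σ, cycK K σ = 1 → (r σ).map π = 1 → ρ σ = 1 := fun σ hc h => hker σ (Units.ext (by
    rw [hρ0, h, show χ σ = 1 by
      change (diaTheta ε red (cycK K σ))⁻¹ = 1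
      rw [hc, map_one, inv_one], Units.val_one, Units.val_one, one_smul]))
  refine ⟨ρ, ?_, hss, fun p hp hpN hpl A hA => ?_⟩
  · obtain ⟨L1, hL1, hc⟩ := cycK_cont K
    obtain ⟨L2, hL2, hr2⟩ := hr.cont 1
    refine ⟨L1 ⊔ L2, inferInstance, fun σ hσ => hone σ
      (hc σ fun y hy => hσ y (le_sup_left (α := IntermediateField ℚ ℚbar) hy)) ?_⟩
    ext i j
    have h := hr2 σ (fun y hy => hσ y (le_sup_right (α := IntermediateField ℚ ℚbar) hy)) i j
    rw [pow_one, ← IsLocalRing.residue_eq_zero_iff] at h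
    have h' : π ((r σ - 1) i j) = 0 := by
      change ι _ = 0
      rw [h, map_zero]
    rw [Matrix.sub_apply, map_sub, sub_eq_zero] at h'
    rw [Matrix.map_apply, h']
    rcases eq_or_ne i j with rfl | hij
    · simp
    · simp [Matrix.one_apply_ne hij]
  · have hpK : ¬ p ∣ K := fun hd => (hp.dvd_mul.mp hd).elim hpN
      fun h => hpl ((Nat.prime_dvd_prime_iff_eq hp hl.out).mp h)
    have hcop : p.Coprime K := hp.coprime_iff_not_dvd.mpr hpK
    have hpKl : ¬ p ∣ K * l := fun hd => (hp.dvd_mul.mp hd).elim hpK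
      fun h => hpl ((Nat.prime_dvd_prime_iff_eq hp hl.out).mp h)
    refine ⟨fun σ hσ => hone σ (cycK_inertia hp hcop hA hσ)
      (by rw [hr.unramified p hp hpKl A hA σ hσ]; exact (π.mapMatrix).map_one), fun σ hσ => ?_⟩
    obtain ⟨htr, hdet⟩ := hr.frobenius p hp hpKl A hA σ hσ
    set u := ZMod.unitOfCoprime p hcop
    have hχ : (χ σ : k) = (diaTheta ε red u : k)⁻¹ := by
      change (((diaTheta ε red (cycK K σ))⁻¹ : kˣ) : k) = _
      rw [cycK_frobenius hp hcop hA hσ, Units.val_inv_eq_inv_val]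
    have hθ : (diaTheta ε red u : k) * red (charInt ε (p : ZMod N)) = (p : k) := by
      have hl' : ((ZMod.unitsMap (dvd_mul_left l N) u : (ZMod l)ˣ) : ZMod l) = (p : ZMod l) := by
        simp [u, ZMod.unitsMap]
      have hN' : ((ZMod.unitsMap (dvd_mul_right N l) u : (ZMod N)ˣ) : ZMod N) = (p : ZMod N) := by
        simp [u, ZMod.unitsMap]
      rw [coe_diaTheta, hl', map_natCast (algebraMap (ZMod l) k), ← hN',
        mul_right_comm, ← map_mul red, ← map_mul (charInt ε), map_inv, ← Units.val_mul,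
        inv_mul_cancel, Units.val_one, map_one, map_one, one_mul]
    have hT : π (tVal x p) = red ⟨qCoeff f p, hf.isIntegral hp hpN⟩ := by
      rw [tVal, dif_pos hp]
      exact hxt (Sum.inl ⟨⟨p, hp⟩, hpK⟩)
    have hEv : π (eVal x p) = (diaTheta ε red u : k) := by
      rw [eVal, dif_pos hcop]
      exact hxt (Sum.inr u)
    have hu0 : (diaTheta ε red u : k) ≠ 0 := Units.ne_zero _
    rw [(htd σ).1, (htd σ).2, hρ0]
    refine ⟨?_, ?_⟩
    · rw [Matrix.trace_smul, show ((r σ).map π).trace = π (r σ).trace from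
        (AddMonoidHom.map_trace π.toAddMonoidHom _).symm, htr, smul_eq_mul]
      change (χ σ : k) * π (tVal x p * eVal x p) = _
      rw [map_mul, hT, hEv, hχ, mul_comm _ (diaTheta ε red u : k), inv_mul_cancel_left₀ hu0]
    · rw [Matrix.det_smul, Fintype.card_fin, show ((r σ).map π).det = π (r σ).det from
        (RingHom.map_det π _).symm, hdet, map_mul, map_natCast, hEv, hχ, ← hθ]
      generalize (diaTheta ε red u : k) = a at hu0 ⊢
      generalize red (charInt ε (p : ZMod N)) = e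
      rw [pow_two, show a⁻¹ * a⁻¹ * (a * e * a) = (a⁻¹ * a) * (a⁻¹ * a) * e by ring,
        inv_mul_cancel₀ hu0, one_mul, one_mul]

end Fermat.DS

end
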