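import Fermat.Agent.DS.Red.RedEq
import Fermat.Agent.DS.Wt1.Nebentypus
import Fermat.Agent.GR.RT.Attach

/-!
# The congruence between `f E` and the reduced system

The product with a form congruent to one is, modulo `l`, an eigenvector of the operators of weight
two: every relation between them holds for the reduced eigenvalues.
-/

set_option autoImplicit false

noncomputable section

open UpperHalfPlane CongruenceSubgroup ModularFormClass MvPolynomial
open scoped MatrixGroups ModularForm Manifold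

namespace Fermat.DS

open Fermat.MC.Lvl Fermat.JAC.XH
open Fermat.MC (BddPer)

variable {N : ℕ} [NeZero N] {l : ℕ} [hl : Fact l.Prime]

/-- A character with values in the algebraic integers. -/
def charInt (ε : DirichletCharacter ℂ N) : ZMod N →* integralClosure ℤ ℂ where
  toFun a := ⟨ε a, isIntegral_char ε a⟩
  map_one' := Subtype.ext (map_one ε)
  map_mul' a b := Subtype.ext (map_mul ε a b)

/-- `charInt` has the values of `ε`. -/
theorem coe_charInt (ε : DirichletCharacter ℂ N) (a : ZMod N) : (charInt ε a : ℂ) = ε a := rfl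

/-- The reduced diamond values of `f E`. -/
def diaTheta (ε : DirichletCharacter ℂ N)
    (red : integralClosure ℤ ℂ →+* AlgebraicClosure (ZMod l)) :
    (ZMod (N * l))ˣ →* (AlgebraicClosure (ZMod l))ˣ :=
  MonoidHom.toHomUnits
    { toFun := fun u =>
        red (charInt ε ((ZMod.unitsMap (dvd_mul_right N l) u⁻¹ : (ZMod N)ˣ) : ZMod N)) *
          algebraMap (ZMod l) _ ((ZMod.unitsMap (dvd_mul_left l N) u : (ZMod l)ˣ) : ZMod l)
      map_one' := by simp
      map_mul' := fun u v => by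
        simp only [mul_inv_rev, map_mul, Units.val_mul]
        ring }

/-- The values of `diaTheta`. -/
theorem coe_diaTheta (ε : DirichletCharacter ℂ N)
    (red : integralClosure ℤ ℂ →+* AlgebraicClosure (ZMod l)) (u : (ZMod (N * l))ˣ) :
    (diaTheta ε red u : AlgebraicClosure (ZMod l)) =
      red (charInt ε ((ZMod.unitsMap (dvd_mul_right N l) u⁻¹ : (ZMod N)ˣ) : ZMod N)) *
          algebraMap (ZMod l) _ ((ZMod.unitsMap (dvd_mul_left l N) u : (ZMod l)ˣ) : ZMod l) :=
  rfl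

omit [NeZero N] in
/-- For an element of `Γ₀(N l)` with upper left entry `u`, the lower right one is `u⁻¹` modulo `N`
and modulo `l`. -/
theorem entries_of_gamma0 {g : SL(2, ℤ)} {u : (ZMod (N * l))ˣ} (hg : g ∈ Gamma0 (N * l))
    (hu : ((g 0 0 : ℤ) : ZMod (N * l)) = u) :
    ((g 1 1 : ℤ) : ZMod N) = ((ZMod.unitsMap (dvd_mul_right N l) u⁻¹ : (ZMod N)ˣ) : ZMod N) ∧
      ((g 1 1 : ℤ) : ZMod l)⁻¹ = ((ZMod.unitsMap (dvd_mul_left l N) u : (ZMod l)ˣ) : ZMod l) := by
  have he := Gamma0_entries hg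
  rw [hu] at he
  have hd : ((g 1 1 : ℤ) : ZMod (N * l)) = ((u⁻¹ : (ZMod (N * l))ˣ) : ZMod (N * l)) := by
    calc ((g 1 1 : ℤ) : ZMod (N * l)) = ((u⁻¹ : (ZMod (N * l))ˣ) : ZMod (N * l)) *
          ((u : ZMod (N * l)) * ((g 1 1 : ℤ) : ZMod (N * l))) := by
            rw [← mul_assoc, Units.inv_mul, one_mul]
      _ = _ := by rw [he, mul_one]
  refine ⟨?_, ?_⟩
  · have h1 := congrArg (ZMod.castHom (dvd_mul_right N l) (ZMod N)) hd
    rw [map_intCast] at h1
    exact h1.trans rfl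
  · have h1 := congrArg (ZMod.castHom (dvd_mul_left l N) (ZMod l)) hd
    rw [map_intCast] at h1
    rw [h1]
    change ((ZMod.unitsMap (dvd_mul_left l N) u⁻¹ : (ZMod l)ˣ) : ZMod l)⁻¹ = _
    rw [map_inv, Units.val_inv_eq_inv_val, inv_inv]

/-- The labels at which the reduced system is defined. -/
abbrev GoodLab (K : ℕ) : Type := {p : Nat.Primes // ¬ (p : ℕ) ∣ K} ⊕ (ZMod K)ˣ

/-- Their inclusion among all labels. -/
def goodIncl (K : ℕ) : GoodLab K → Nat.Primes ⊕ (ZMod K)ˣ := Sum.map Subtype.val id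

variable {ε : DirichletCharacter ℂ N} {f : CuspForm (Gamma1 N) 1}

/-- The reduced eigenvalue at a good prime. -/
def redEigen (hf : IsWeightOneEigen ε f) (red : integralClosure ℤ ℂ →+* AlgebraicClosure (ZMod l))
    (p : {p : Nat.Primes // ¬ (p : ℕ) ∣ N * l}) : AlgebraicClosure (ZMod l) :=
  red ⟨qCoeff f ((p : Nat.Primes) : ℕ), hf.isIntegral p.1.2 fun h => p.2 (h.mul_right l)⟩

/-- The reduced eigensystem: eigenvalues at the good primes, character values at the diamonds. -/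
def redValues (hf : IsWeightOneEigen ε f)
    (red : integralClosure ℤ ℂ →+* AlgebraicClosure (ZMod l)) :
    GoodLab (N * l) → AlgebraicClosure (ZMod l) :=
  Sum.elim (redEigen hf red) fun u => (diaTheta ε red u : AlgebraicClosure (ZMod l))

variable (N) (H : Subgroup (ZMod N)ˣ) [NegMem H] in
/-- Coefficients are additive in the form. -/
theorem qCoeff_add_form (g h : CuspForm (GammaH N H) 2) (n : ℕ) :
    qCoeff (g + h : CuspForm (GammaH N H) 2) n = qCoeff g n + qCoeff h n := by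
  rw [← aCoeff_eS2, map_add, map_add, aCoeff_eS2, aCoeff_eS2]

variable (N) (H : Subgroup (ZMod N)ˣ) [NegMem H] in
/-- Coefficients commute with integer multiples. -/
theorem qCoeff_zsmul_form (a : ℤ) (g : CuspForm (GammaH N H) 2) (n : ℕ) :
    qCoeff (a • g : CuspForm (GammaH N H) 2) n = a * qCoeff g n := by
  rw [← aCoeff_eS2, map_zsmul, map_zsmul, aCoeff_eS2, zsmul_eq_mul]

variable (N) (H : Subgroup (ZMod N)ˣ) [NegMem H] in
/-- The zero form has zero coefficients. -/
theorem qCoeff_zero_form (n : ℕ) : qCoeff (0 : CuspForm (GammaH N H) 2) n = 0 := by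
  rw [← aCoeff_eS2, map_zero, map_zero]

/-- A translate of `E` by an element of `Gamma0 l` is holomorphic, periodic and bounded. -/
theorem bddPer_slash_gamma0 {E : ℍ → ℂ} (hEh : MDiff E)
    (hEi : ∀ γ ∈ Gamma1 l, E ∣[(1 : ℤ)] γ = E)
    (hEb : ∀ γ : SL(2, ℤ), IsBoundedAtImInfty (E ∣[(1 : ℤ)] γ)) {δ : SL(2, ℤ)}
    (hδ : δ ∈ Gamma0 l) : BddPer (E ∣[(1 : ℤ)] δ) := by
  refine ⟨hEh.slash 1 _, ?_, hEb δ⟩
  have hT : δ * ModularGroup.T * δ⁻¹ ∈ Gamma1 l :=
    RM.conj_mem_Gamma1 hδ ((Gamma1_mem l ModularGroup.T).mpr (by simp [ModularGroup.coe_T]))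
  have h1 : (E ∣[(1 : ℤ)] δ) ∣[(1 : ℤ)] ModularGroup.T = E ∣[(1 : ℤ)] δ := by
    rw [← SlashAction.slash_mul, show δ * ModularGroup.T = δ * ModularGroup.T * δ⁻¹ * δ from
      (inv_mul_cancel_right _ δ).symm, SlashAction.slash_mul, hEi _ hT]
  refine Fermat.MC.ext_add_one _ fun z => ?_
  have h2 := congrFun h1 z
  rw [ModularForm.SL_slash_apply] at h2
  have hd : denom ((ModularGroup.T : SL(2, ℤ)) : GL (Fin 2) ℝ) z = 1 := by
    simp [denom, ModularGroup.coe_T]
  rwa [hd, one_zpow, mul_one] at h2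

variable {red : integralClosure ℤ ℂ →+* AlgebraicClosure (ZMod l)}

/-- At a good prime `p`, the factor `p` times the reduced diamond value of `p⁻¹` is the reduced
value of the character at `p`. -/
theorem natCast_mul_diaTheta_inv {p : ℕ} (hp : p.Prime) (hpK : ¬ p ∣ N * l) :
    (p : AlgebraicClosure (ZMod l)) *
        (diaTheta ε red (unitOf (N * l) hp hpK)⁻¹ : AlgebraicClosure (ZMod l)) =
      red (charInt ε (p : ZMod N)) := by
  set vp := unitOf (N * l) hp hpK
  rw [coe_diaTheta]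
  simp only [inv_inv, map_inv, Units.val_inv_eq_inv_val]
  have hN' : ((ZMod.unitsMap (dvd_mul_right N l) vp : (ZMod N)ˣ) : ZMod N) = (p : ZMod N) := by
    simp [vp, ZMod.unitsMap, unitOf]
  have hl' : ((ZMod.unitsMap (dvd_mul_left l N) vp : (ZMod l)ˣ) : ZMod l) = (p : ZMod l) := by
    simp [vp, ZMod.unitsMap, unitOf]
  rw [hN', hl', map_inv₀, map_natCast (algebraMap (ZMod l) (AlgebraicClosure (ZMod l)))]
  have hp0 : (p : AlgebraicClosure (ZMod l)) ≠ 0 := by
    rw [Ne, CharP.cast_eq_zero_iff (AlgebraicClosure (ZMod l)) l,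
      Nat.prime_dvd_prime_iff_eq hl.out hp]
    rintro rfl
    exact hpK (dvd_mul_left _ _)
  rw [mul_left_comm, mul_inv_cancel₀ hp0, mul_one]

/-- A specialisation of the coefficient algebra. -/
abbrev CongrSpec (s : Finset ℂ) := Algebra.adjoin QbarC (s : Set ℂ) →ₐ[QbarC] QbarC

/-- The cusp forms of weight two in which the congruence takes place. -/
abbrev CongrForm (N l : ℕ) [NeZero (N * l)] := CuspForm (GammaH (N * l) (pmH (N * l))) 2

variable {s : Finset ℂ} {ψ : CongrSpec s}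
  {κ : ℕ → AlgebraicClosure (ZMod l)}

/-- The reduced coefficients satisfy the Hecke relation with the reduced eigenvalue. -/
theorem kappa_hecke_rel (hf : IsWeightOneEigen ε f) (hκ : ∀ n, KapEq ψ red (qCoeff f n) (κ n))
    (p : {p : Nat.Primes // ¬ (p : ℕ) ∣ N * l}) (n : ℕ) :
    κ ((p : Nat.Primes) * n) + red (charInt ε ((p : Nat.Primes) : ZMod N)) *
        (if ((p : Nat.Primes) : ℕ) ∣ n then κ (n / (p : Nat.Primes)) else 0) =
      redEigen hf red p * κ n := by
  obtain ⟨⟨p, hp⟩, hpK⟩ := p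
  have hpN : ¬ p ∣ N := fun hd => hpK (hd.mul_right l)
  have hεk : KapEq ψ red (if p ∣ n then qCoeff f (n / p) else 0)
      (if p ∣ n then κ (n / p) else 0) := by
    split_ifs
    · exact hκ _
    · exact kapEq_zero
  have hl1 := (hκ (p * n)).add
    ((RedEq.of_mem (red := red) (charInt ε (p : ZMod N))).kapEq.mul hεk)
  rw [coe_charInt, hf.hecke p hp hpN n] at hl1
  exact hl1.unique ((RedEq.of_mem (red := red)
    ⟨qCoeff f p, hf.isIntegral hp hpN⟩).kapEq.mul (hκ n))

/-- Multiplying by a series that reduces to a constant `a` multiplies the reduced coefficients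
by `a`. -/
theorem kapEq_qCoeff_mul_const {F G : ℍ → ℂ} (hF : BddPer F) (hG : BddPer G)
    {t : ℕ → AlgebraicClosure (ZMod l)} {a : AlgebraicClosure (ZMod l)}
    (hFt : ∀ m, KapEq ψ red (qCoeff F m) (t m))
    (hGa : ∀ m, RedEq red (qCoeff G m) (if m = 0 then a else 0)) (n : ℕ) :
    KapEq ψ red (qCoeff (F * G) n) (t n * a) := by
  change KapEq ψ red ((qExpansion 1 (F * G)).coeff n) _
  rw [qExpansion_mul hF.analyticAt hG.analyticAt, PowerSeries.coeff_mul]
  have h := kapEq_sum (Finset.HasAntidiagonal.antidiagonal n)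
    (fun x => qCoeff F x.1 * qCoeff G x.2) (fun x => t x.1 * if x.2 = 0 then a else 0)
    fun x _ => (hFt x.1).mul (hGa x.2).kapEq
  rw [Finset.sum_eq_single (f := fun x : ℕ × ℕ => t x.1 * if x.2 = 0 then a else 0) (n, 0)] at h
  · simp only [↓reduceIte] at h
    exact h
  · rintro ⟨i, j⟩ hij hne
    rw [Finset.HasAntidiagonal.mem_antidiagonal] at hij
    have hj : j ≠ 0 := by rintro rfl; exact hne (by simpa using hij)
    simp [hj]
  · exact fun h => absurd (Finset.HasAntidiagonal.mem_antidiagonal.mpr (add_zero n)) h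

/-- All diamond translates of `h` have coefficients congruent to `c` times the reduced system. -/
def CongrGood (ε : DirichletCharacter ℂ N)
    (red : integralClosure ℤ ℂ →+* AlgebraicClosure (ZMod l))
    (ψ : CongrSpec s) (κ : ℕ → AlgebraicClosure (ZMod l)) (h : CongrForm N l)
    (c : AlgebraicClosure (ZMod l)) : Prop :=
  ∀ (u : (ZMod (N * l))ˣ) (n : ℕ),
    KapEq ψ red (qCoeff (HM.formDia (N * l) (pmH (N * l)) u h) n)
      (c * (diaTheta ε red u : AlgebraicClosure (ZMod l)) * κ n)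

/-- The product of `f` and `E` is congruent to the reduced system. -/
theorem congrGood_mulForm (hf : IsWeightOneEigen ε f)
    {E : ℍ → ℂ} (hEh : MDiff E) (hEi : ∀ γ ∈ Gamma1 l, E ∣[(1 : ℤ)] γ = E)
    (hEb : ∀ γ : SL(2, ℤ), IsBoundedAtImInfty (E ∣[(1 : ℤ)] γ))
    (hE : ∀ γ ∈ Gamma0 l, ∀ n : ℕ, RedEq red (qCoeff (E ∣[(1 : ℤ)] γ) n)
      (if n = 0 then algebraMap (ZMod l) _ ((γ 1 1 : ℤ) : ZMod l)⁻¹ else 0))
    (hκ : ∀ n, KapEq ψ red (qCoeff f n) (κ n))
    (hfi : ∀ γ ∈ Gamma1 (N * l), ⇑f ∣[(1 : ℤ)] γ = ⇑f)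
    (hEiK : ∀ γ ∈ Gamma1 (N * l), E ∣[(1 : ℤ)] γ = E) :
    CongrGood ε red ψ κ (mulForm (N * l) ⇑f E (bddPer_Gamma1 f).1 hEh hfi hEiK
      (isZeroAtImInfty_slash_Gamma1 f) hEb) 1 := by
  intro u n
  set g := mulForm (N * l) ⇑f E (bddPer_Gamma1 f).1 hEh hfi hEiK
    (isZeroAtImInfty_slash_Gamma1 f) hEb
  obtain ⟨hδ, hδu⟩ := (exists_gamma0_lift u).choose_spec
  set δ := (exists_gamma0_lift u).choose
  obtain ⟨e1, e2⟩ := entries_of_gamma0 hδ hδu
  have hδN : δ ∈ Gamma0 N := Gamma0_mem.mpr (by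
    simpa using congrArg (ZMod.castHom (dvd_mul_right N l) (ZMod N)) (Gamma0_mem.mp hδ))
  have hδl : δ ∈ Gamma0 l := Gamma0_mem.mpr (by
    simpa using congrArg (ZMod.castHom (dvd_mul_left l N) (ZMod l)) (Gamma0_mem.mp hδ))
  have hcoe : ⇑(HM.formDia (N * l) (pmH (N * l)) u g) =
      (ε ((δ 1 1 : ℤ) : ZMod N) • ⇑f) * (E ∣[(1 : ℤ)] δ) := by
    rw [HM.formDia, HM.IsLevelMap.coe_formPull, HM.toReal_gq, ← ModularForm.SL_slash, coe_mulForm,
      show (2 : ℤ) = 1 + 1 by norm_num, ModularForm.mul_slash_SL2, hf.slash_eq hδN]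
  have hf' : BddPer (ε ((δ 1 1 : ℤ) : ZMod N) • ⇑f) :=
    (BddPer.const (ε ((δ 1 1 : ℤ) : ZMod N))).mul (bddPer_Gamma1 f)
  have hft : ∀ m, KapEq ψ red (qCoeff (ε ((δ 1 1 : ℤ) : ZMod N) • ⇑f) m)
      (red (charInt ε ((δ 1 1 : ℤ) : ZMod N)) * κ m) := fun m => by
    change KapEq ψ red ((qExpansion 1 (ε ((δ 1 1 : ℤ) : ZMod N) • ⇑f)).coeff m) _
    rw [qExpansion_smul (bddPer_Gamma1 f).analyticAt, PowerSeries.coeff_smul, smul_eq_mul]
    exact (RedEq.of_mem (red := red) (charInt ε ((δ 1 1 : ℤ) : ZMod N))).kapEq.mul (hκ m)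
  have h := kapEq_qCoeff_mul_const hf' (bddPer_slash_gamma0 hEh hEi hEb hδl) hft (hE δ hδl) n
  rw [hcoe, one_mul, coe_diaTheta, ← e2, ← e1, mul_right_comm]
  exact h

variable {h : CongrForm N l} {c : AlgebraicClosure (ZMod l)}

/-- A Hecke operator at a good prime multiplies the scalar by the reduced eigenvalue. -/
theorem CongrGood.hecke (hh : CongrGood ε red ψ κ h c) (hf : IsWeightOneEigen ε f)
    (hκ : ∀ n, KapEq ψ red (qCoeff f n) (κ n)) (p : {p : Nat.Primes // ¬ (p : ℕ) ∣ N * l}) :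
    CongrGood ε red ψ κ
      (HM.formAct (N * l) (pmH (N * l)) (X (goodIncl (N * l) (Sum.inl p))) h)
      (c * redEigen hf red p) := by
  obtain ⟨⟨p, hp⟩, hpK⟩ := p
  intro u n
  have : Fact p.Prime := ⟨hp⟩
  rw [HM.formAct_X]
  change KapEq ψ red
    (qCoeff (HM.formDia (N * l) (pmH (N * l)) u (HM.formHecke (N * l) (pmH (N * l)) p h)) n) _
  rw [HM.formDia_formHecke, qCoeff_formHecke, dif_neg hpK, HM.formDia_mul]
  set vp := unitOf (N * l) hp hpK
  let θ : (ZMod (N * l))ˣ → AlgebraicClosure (ZMod l) := fun u => ↑(diaTheta ε red u)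
  have hθp : (p : AlgebraicClosure (ZMod l)) * θ vp⁻¹ = red (charInt ε (p : ZMod N)) :=
    natCast_mul_diaTheta_inv hp hpK
  have hθ : θ (vp⁻¹ * u) = θ vp⁻¹ * θ u := by simp only [θ, map_mul, Units.val_mul]
  let t2 : AlgebraicClosure (ZMod l) :=
    if p ∣ n then (p : AlgebraicClosure (ZMod l)) * (c * θ (vp⁻¹ * u) * κ (n / p)) else 0
  have h2 : KapEq ψ red (if p ∣ n then
      (p : ℂ) * qCoeff (HM.formDia (N * l) (pmH (N * l)) (vp⁻¹ * u) h) (n / p) else 0) t2 := by
    simp only [t2]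
    split_ifs with hd
    · exact (RedEq.natCast p).kapEq.mul (hh _ _)
    · exact kapEq_zero
  have h12 := (hh u (p * n)).add h2
  have hrel : κ (p * n) + red (charInt ε (p : ZMod N)) * (if p ∣ n then κ (n / p) else 0) =
      redEigen hf red ⟨⟨p, hp⟩, hpK⟩ * κ n := kappa_hecke_rel hf hκ ⟨⟨p, hp⟩, hpK⟩ n
  have hval : c * θ u * κ (p * n) + t2 =
      c * redEigen hf red ⟨⟨p, hp⟩, hpK⟩ * θ u * κ n := by
    simp only [t2, hθ]
    split_ifs at hrel ⊢ with hd
    · linear_combination c * θ u * hrel + c * θ u * κ (n / p) * hθp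
    · linear_combination c * θ u * hrel
  rwa [hval] at h12

/-- A diamond operator multiplies the scalar by the reduced diamond value. -/
theorem CongrGood.dia (hh : CongrGood ε red ψ κ h c) (v : (ZMod (N * l))ˣ) :
    CongrGood ε red ψ κ
      (HM.formAct (N * l) (pmH (N * l)) (X (goodIncl (N * l) (Sum.inr v))) h)
      (c * (diaTheta ε red v : AlgebraicClosure (ZMod l))) := by
  intro u n
  rw [HM.formAct_X]
  change KapEq ψ red
    (qCoeff (HM.formDia _ (pmH _) u (HM.formDia _ (pmH _) v h)) n) _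
  rw [HM.formDia_mul]
  have := hh (u * v) n
  rwa [map_mul, Units.val_mul, ← mul_assoc c, mul_right_comm c] at this

/-- A polynomial in the operators multiplies the scalar by its value at the reduced system. -/
theorem CongrGood.formAct (hh : CongrGood ε red ψ κ h c) (hf : IsWeightOneEigen ε f)
    (hκ : ∀ n, KapEq ψ red (qCoeff f n) (κ n)) (Q : MvPolynomial (GoodLab (N * l)) ℤ) :
    CongrGood ε red ψ κ (HM.formAct (N * l) (pmH (N * l)) (rename (goodIncl (N * l)) Q) h)
      (c * MvPolynomial.eval₂Hom (Int.castRingHom _) (redValues hf red) Q) := by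
  induction Q using MvPolynomial.induction_on generalizing h c with
  | C a =>
    intro u n
    rw [rename_C, eval₂Hom_C, ← algebraMap_eq, AlgHom.commutes, Module.algebraMap_end_apply,
      map_zsmul, qCoeff_zsmul_form, eq_intCast]
    have := (redEq_intCast (red := red) a).kapEq.mul (hh u n)
    rwa [← mul_assoc, ← mul_assoc, mul_comm _ c] at this
  | add A B hA hB =>
    intro u n
    rw [map_add, map_add, map_add, LinearMap.add_apply, map_add, qCoeff_add_form]
    have := (hA hh u n).add (hB hh u n)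
    rwa [← add_mul, ← add_mul, ← mul_add] at this
  | mul_X A i hA =>
    intro u n
    rw [map_mul, map_mul, map_mul, rename_X, eval₂Hom_X', Module.End.mul_apply]
    have hi : CongrGood ε red ψ κ
        (HM.formAct (N * l) (pmH (N * l)) (X (goodIncl (N * l) i)) h)
        (c * redValues hf red i) := by
      cases i with
      | inl p => exact hh.hecke hf hκ p
      | inr v => exact hh.dia v
    have := hA hi u n
    rwa [mul_assoc c, mul_comm (redValues hf red i)] at this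

/-- **The relations between the operators of level `N l` hold for the reduced system.** -/
theorem eval_eq_zero_of_formAct (hf : IsWeightOneEigen ε f)
    {E : ℍ → ℂ} (hEh : MDiff E) (hEi : ∀ γ ∈ Gamma1 l, E ∣[(1 : ℤ)] γ = E)
    (hEb : ∀ γ : SL(2, ℤ), IsBoundedAtImInfty (E ∣[(1 : ℤ)] γ))
    {red : integralClosure ℤ ℂ →+* AlgebraicClosure (ZMod l)}
    (hE : ∀ γ ∈ Gamma0 l, ∀ n : ℕ, RedEq red (qCoeff (E ∣[(1 : ℤ)] γ) n)
      (if n = 0 then algebraMap (ZMod l) _ ((γ 1 1 : ℤ) : ZMod l)⁻¹ else 0))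
    {s : Finset ℂ} (ψ : Algebra.adjoin QbarC (s : Set ℂ) →ₐ[QbarC] QbarC)
    (hκ : ∀ n, ∃ t, KapEq ψ red (qCoeff f n) t) :
    ∀ P : MvPolynomial (GoodLab (N * l)) ℤ,
      HM.formAct (N * l) (pmH (N * l)) (rename (goodIncl (N * l)) P) = 0 →
        MvPolynomial.eval₂Hom (Int.castRingHom _) (redValues hf red) P = 0 := by
  intro P hP
  choose κ hκ using hκ
  have hfi : ∀ γ ∈ Gamma1 (N * l), ⇑f ∣[(1 : ℤ)] γ = ⇑f := fun γ hγ =>
    HM.slash_of_mem f (Gamma1_le_of_dvd (dvd_mul_right N l) hγ)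
  have hEiK : ∀ γ ∈ Gamma1 (N * l), E ∣[(1 : ℤ)] γ = E := fun γ hγ =>
    hEi γ (Gamma1_le_of_dvd (dvd_mul_left l N) hγ)
  have h := (congrGood_mulForm hf hEh hEi hEb hE hκ hfi hEiK).formAct hf hκ P 1 1
  rw [hP, LinearMap.zero_apply, map_zero, qCoeff_zero_form] at h
  have h1 : κ 1 = 1 := by
    have h1 := hκ 1
    rw [hf.one] at h1
    have h2 := (redEq_intCast (red := red) 1).kapEq (ψ := ψ)
    rw [Int.cast_one, Int.cast_one] at h2
    exact h1.unique h2
  simpa [h1] using h.unique kapEq_zero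

end Fermat.DS

end
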