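import Fermat.Agent.DS.Eis.Red
import Fermat.Agent.DS.Wt1.Algebraic

/-!
# Reduction of numbers integral at a place, and of specialised coefficients

`RedEq` has at most one value (`RedEq.unique`), and `KapEq` is reduction after specialisation of
coefficients.
-/

set_option autoImplicit false

noncomputable section

open scoped MatrixGroups

namespace Fermat.DS

variable {l : ℕ} [Fact l.Prime] {red : integralClosure ℤ ℂ →+* AlgebraicClosure (ZMod l)}
  {c c' : ℂ} {t t' : AlgebraicClosure (ZMod l)}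

/-- A number has at most one reduction. -/
theorem RedEq.unique (h : RedEq red c t) (h' : RedEq red c t') : t = t' := by
  obtain ⟨a, b, hb, e, ea⟩ := h
  obtain ⟨a', b', hb', e', ea'⟩ := h'
  have h1 : a * b' = a' * b := Subtype.ext (by
    rw [Subalgebra.coe_mul, Subalgebra.coe_mul, ← e, ← e']
    ring)
  have h2 := congrArg red h1
  rw [map_mul, map_mul, ea, ea'] at h2
  exact mul_right_cancel₀ (mul_ne_zero hb hb') (by linear_combination h2)

/-- An integer reduces to itself. -/
theorem redEq_intCast (n : ℤ) : RedEq red (n : ℂ) (n : AlgebraicClosure (ZMod l)) := by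
  have h := RedEq.of_mem (red := red) (n : integralClosure ℤ ℂ)
  rwa [map_intCast, SubringClass.coe_intCast] at h

/-- A number with a reduction is algebraic. -/
theorem RedEq.mem_QbarC (h : RedEq red c t) : c ∈ QbarC := by
  obtain ⟨a, b, hb, e, -⟩ := h
  have h0 : (b : ℂ) ≠ 0 := fun h0 => hb (by rw [show b = 0 from Subtype.ext h0, map_zero])
  have hmem : ∀ y : integralClosure ℤ ℂ, (y : ℂ) ∈ QbarC := fun y =>
    mem_algebraicClosure_iff.mpr (y.2.tower_top (A := ℚ)).isAlgebraic
  rw [show c = (a : ℂ) / (b : ℂ) by rw [eq_div_iff h0, e]]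
  exact div_mem (hmem a) (hmem b)

section Kap

variable {s : Finset ℂ} {ψ : Algebra.adjoin QbarC (s : Set ℂ) →ₐ[QbarC] QbarC}

/-- `c` lies in the coefficient algebra and its specialisation reduces to `t`. -/
def KapEq (ψ : Algebra.adjoin QbarC (s : Set ℂ) →ₐ[QbarC] QbarC)
    (red : integralClosure ℤ ℂ →+* AlgebraicClosure (ZMod l)) (c : ℂ)
    (t : AlgebraicClosure (ZMod l)) : Prop :=
  ∃ h : c ∈ Algebra.adjoin QbarC (s : Set ℂ), RedEq red ((ψ ⟨c, h⟩ : QbarC) : ℂ) t

/-- A number has at most one reduction through `ψ`. -/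
theorem KapEq.unique (h : KapEq ψ red c t) (h' : KapEq ψ red c t') : t = t' := by
  obtain ⟨_, h1⟩ := h
  obtain ⟨_, h2⟩ := h'
  exact h1.unique h2

/-- Reduction through `ψ` is additive. -/
theorem KapEq.add (h : KapEq ψ red c t) (h' : KapEq ψ red c' t') :
    KapEq ψ red (c + c') (t + t') := by
  obtain ⟨m, h1⟩ := h
  obtain ⟨m', h2⟩ := h'
  refine ⟨add_mem m m', ?_⟩
  have e : (⟨c + c', add_mem m m'⟩ : Algebra.adjoin QbarC (s : Set ℂ)) = ⟨c, m⟩ + ⟨c', m'⟩ := rfl
  rw [e, map_add]
  exact h1.add h2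

/-- Reduction through `ψ` is multiplicative. -/
theorem KapEq.mul (h : KapEq ψ red c t) (h' : KapEq ψ red c' t') :
    KapEq ψ red (c * c') (t * t') := by
  obtain ⟨m, h1⟩ := h
  obtain ⟨m', h2⟩ := h'
  refine ⟨mul_mem m m', ?_⟩
  have e : (⟨c * c', mul_mem m m'⟩ : Algebra.adjoin QbarC (s : Set ℂ)) = ⟨c, m⟩ * ⟨c', m'⟩ := rfl
  rw [e, map_mul]
  exact h1.mul h2

/-- A reduction is a reduction through `ψ`. -/
theorem RedEq.kapEq (h : RedEq red c t) : KapEq ψ red c t := by
  have hQ := h.mem_QbarC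
  refine ⟨(Algebra.adjoin QbarC (s : Set ℂ)).algebraMap_mem ⟨c, hQ⟩, ?_⟩
  have e : ψ ⟨c, (Algebra.adjoin QbarC (s : Set ℂ)).algebraMap_mem ⟨c, hQ⟩⟩ = ⟨c, hQ⟩ :=
    ψ.commutes ⟨c, hQ⟩
  rw [e]
  exact h

/-- Zero reduces to zero through `ψ`. -/
theorem kapEq_zero : KapEq ψ red 0 0 := by
  have h := (redEq_intCast (red := red) 0).kapEq (ψ := ψ)
  rwa [Int.cast_zero, Int.cast_zero] at h

/-- Reduction through `ψ` commutes with finite sums. -/
theorem kapEq_sum {α : Type*} (S : Finset α) (cf : α → ℂ) (tf : α → AlgebraicClosure (ZMod l))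
    (h : ∀ i ∈ S, KapEq ψ red (cf i) (tf i)) :
    KapEq ψ red (∑ i ∈ S, cf i) (∑ i ∈ S, tf i) := by
  classical
  induction S using Finset.induction_on with
  | empty => simpa using kapEq_zero
  | @insert a S ha ih =>
    rw [Finset.sum_insert ha, Finset.sum_insert ha]
    exact (h a (Finset.mem_insert_self a S)).add
      (ih fun i hi => h i (Finset.mem_insert_of_mem hi))

end Kap

/-- A common denominator of finitely many algebraic numbers. -/
theorem exists_denominator {α : Type*} (S : Finset α) (y : α → QbarC) :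
    ∃ D : ℕ, D ≠ 0 ∧ ∀ i ∈ S, IsIntegral ℤ ((D : ℂ) * (y i : ℂ)) := by
  classical
  induction S using Finset.induction_on with
  | empty => exact ⟨1, one_ne_zero, fun i hi => absurd hi (Finset.notMem_empty i)⟩
  | @insert a S ha ih =>
    obtain ⟨D, hD, hS⟩ := ih
    have halg : IsAlgebraic ℤ ((y a : QbarC) : ℂ) :=
      (IsFractionRing.isAlgebraic_iff ℤ ℚ ℂ).mpr (mem_algebraicClosure_iff.mp (y a).2)
    obtain ⟨m, hm, hint⟩ := halg.exists_integral_multiple
    refine ⟨D * m.natAbs, Nat.mul_ne_zero hD (Int.natAbs_ne_zero.mpr hm), fun i hi => ?_⟩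
    rcases Finset.mem_insert.mp hi with rfl | hi
    · rw [Nat.cast_mul, mul_assoc]
      refine (isIntegral_algebraMap (R := ℤ) (A := ℂ) (x := (D : ℤ))).mul ?_ |> fun h => by
        simpa using h
      rw [zsmul_eq_mul] at hint
      rcases Int.natAbs_eq m with e | e
      · rw [e] at hint
        simpa using hint
      · rw [e] at hint
        simpa using hint.neg
    · rw [Nat.cast_mul, mul_comm (D : ℂ), mul_assoc]
      refine (isIntegral_algebraMap (R := ℤ) (A := ℂ) (x := (m.natAbs : ℤ))).mul (hS i hi) |>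
        fun h => by simpa using h

end Fermat.DS

end
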